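import Fermat.Agent.OrdF.Ram
import Fermat.Agent.Flat.Conn

/-!
# The augmentation part of a finite flat module
-/

set_option autoImplicit false
set_option linter.unusedSectionVars false
set_option linter.style.haveILetI false

noncomputable section

namespace Fermat.Agent.OrdF

open Fermat.Agent.Flat

variable {p : ℕ} [hp : Fact p.Prime] {Ω : Type} [NormedField Ω] {I : Type} [Group I]
  [MulSemiringAction I Ω] [S : Setting p Ω I] {M : Type} [AddCommGroup M]

variable (p I) in
include S in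
theorem card_ch [Finite M] : Nat.card (Ch Ω M) = Nat.card M := by
  haveI := S.charZero
  haveI := S.isAlgClosed
  haveI : NeZero (Monoid.exponent (Multiplicative M)) := ⟨Monoid.exponent_ne_zero_of_finite⟩
  haveI : NeZero ((Monoid.exponent (Multiplicative M) : ℕ) : Ω) :=
    ⟨by exact_mod_cast NeZero.ne _⟩
  obtain ⟨E⟩ := CommGroup.monoidHom_mulEquiv_of_hasEnoughRootsOfUnity (Multiplicative M) Ω
  rw [Nat.card_congr (AddMonoidHom.toMultiplicativeLeft (α := M) (β := Ωˣ)),
    Nat.card_congr E.toEquiv]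
  rfl

/-- Elements of a module with a perfect pairing whose associated function is congruent to `1`. -/
theorem mem_of_family [Finite M] {ρ : I → M → M} (hρ : IsAct ρ) {n : ℕ}
    (hn : ∀ x : M, p ^ n • x = 0) (e : M → M → Ω)
    (he_left : ∀ x x' y, e (x + x') y = e x y * e x' y)
    (he_right : ∀ x y y', e x (y + y') = e x y * e x y')
    (he_gal : ∀ σ x y, e (ρ σ x) (ρ σ y) = σ • e x y) (he_ne : ∀ x y, e x y ≠ 0)
    (hr : ∀ y, (∀ x, e x y = 1) → y = 0) {x : M} {ι : Type} [Fintype ι] (a : ι → Ω)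
    (c : ι → M → Ω) (ha : ∀ i, ‖a i‖ < 1) (hc1 : ∀ i y, ‖c i y‖ ≤ 1)
    (hc2 : ∀ i σ y, c i (ρ σ y) = σ • c i y) (hx : ∀ y, e x y = 1 + ∑ i, a i * c i y)
    (N : AddSubgroup M) (hN : ∀ σ y, ρ σ y - y ∈ N) : x ∈ N := by
  classical
  by_contra hxN
  have hx0 : (QuotientAddGroup.mk x : M ⧸ N) ≠ 0 := by
    rwa [Ne, QuotientAddGroup.eq_zero_iff]
  obtain ⟨χ, hχ⟩ := ce_separates p Ω I hx0
  let ψ : Ch Ω M := χ.comp (QuotientAddGroup.mk' N)
  have he0 : ∀ y, e 0 y = 1 := by
    intro y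
    have h1 := he_left 0 0 y
    rw [add_zero] at h1
    exact (mul_eq_left₀ (he_ne 0 y)).1 h1.symm
  have he0' : ∀ y, e y 0 = 1 := by
    intro y
    have h1 := he_right y 0 0
    rw [add_zero] at h1
    exact (mul_eq_left₀ (he_ne y 0)).1 h1.symm
  -- the character is given by the pairing
  let E : M → Ch Ω M := fun y => AddMonoidHom.mk' (fun x => Additive.ofMul (Units.mk0 (e x y)
    (he_ne x y))) fun x x' => by
      rw [← ofMul_mul]
      congr 1
      apply Units.ext
      rw [Units.val_mul, Units.val_mk0, Units.val_mk0, Units.val_mk0, he_left]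
  have hE : ∀ x y, ce x (E y) = e x y := fun x y => rfl
  have hEr : ∀ y y', (∀ x, e x y = e x y') → y = y' := by
    intro y y' h
    rw [← sub_eq_zero]
    apply hr
    intro x
    have h1 := he_right x (y - y') y'
    rw [sub_add_cancel, h] at h1
    exact (mul_eq_right₀ (he_ne x y')).1 h1.symm
  have hEinj : Function.Injective E := by
    intro y y' h
    apply hEr
    intro x
    rw [← hE, ← hE, h]
  haveI : Finite (Ch Ω M) := finite_ch p Ω I
  have hEs : Function.Surjective E :=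
    (hEinj.bijective_of_nat_card_le (card_ch p I).le).2
  obtain ⟨y, hy⟩ := hEs ψ
  have hey : ∀ z, e z y = ce (QuotientAddGroup.mk z : M ⧸ N) χ := by
    intro z
    rw [← hE, hy]
    rfl
  have hgal : ∀ σ z, e z (ρ σ y) = σ • e z y := by
    intro σ z
    have h1 := he_gal σ (ρ σ⁻¹ z) y
    rw [← hρ.mul, mul_inv_cancel, hρ.one] at h1
    rw [h1]
    congr 1
    rw [hey, hey]
    congr 1
    rw [QuotientAddGroup.eq]
    have h2 := N.neg_mem (hN σ⁻¹ z)
    rwa [neg_sub, sub_eq_neg_add] at h2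
  have hpow : ∀ z, e z y ^ p ^ n = 1 := by
    intro z
    have h1 : ∀ m : ℕ, e (m • z) y = e z y ^ m := by
      intro m
      induction m with
      | zero => rw [zero_smul, he0, pow_zero]
      | succ m ih => rw [add_smul, one_smul, he_left, ih, pow_succ]
    rw [← h1, hn, he0]
  have h1 : e x y = 1 := by
    refine eq_one_of_family (I := I) (hpow x) a (fun i => c i y) ha (fun i => hc1 i y) ?_ ?_
    · intro σ hσ i
      rw [← hc2]
      congr 1
      apply hEr
      intro z
      rw [hgal, hσ _ (hpow z)]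
    · intro σ
      rw [← hgal, hx, add_sub_cancel_left]
      exact Finset.sum_congr rfl fun i _ => by rw [hc2]
  rw [hey] at h1
  exact hχ h1

/-- The group generated by the `σ x - x`. -/
def augS (ρ : I → M → M) (N : AddSubgroup M) : AddSubgroup M :=
  AddSubgroup.closure {z | ∃ σ, ∃ y ∈ N, z = ρ σ y - y}

theorem conn_eq_aug [Finite M] {ρ : I → M → M} (hρ : IsAct ρ) {n : ℕ}
    (hn : ∀ x : M, p ^ n • x = 0) (D : Ord p Ω I ρ) : D.conn = augS ρ ⊤ := by
  apply le_antisymm
  · apply D.conn_le hρ hn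
    intro σ x
    exact AddSubgroup.subset_closure ⟨σ, x, AddSubgroup.mem_top x, rfl⟩
  · rw [augS, AddSubgroup.closure_le]
    rintro _ ⟨σ, y, -, rfl⟩
    exact D.smul_sub_mem_conn σ y

/-- **Exactness of the augmentation part.** -/
theorem inf_augS [Finite M] {ρ : I → M → M} (hρ : IsAct ρ) {n : ℕ}
    (hn : ∀ x : M, p ^ n • x = 0) (D : Ord p Ω I ρ) (N : AddSubgroup M)
    (hN : ∀ σ, ∀ y ∈ N, ρ σ y ∈ N) : N ⊓ augS ρ ⊤ = augS ρ N := by
  apply le_antisymm
  · rintro x ⟨hxN, hx⟩
    let ρN : I → N → N := fun σ y => ⟨ρ σ y.1, hN σ y.1 y.2⟩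
    have he : ∀ σ y, N.subtype (ρN σ y) = ρ σ (N.subtype y) := fun σ y => rfl
    have hactN : IsAct ρN :=
      { one := fun y => Subtype.ext (hρ.one y.1)
        mul := fun σ τ y => Subtype.ext (hρ.mul σ τ y.1)
        add := fun σ y y' => Subtype.ext (hρ.add σ y.1 y'.1) }
    let DN : Ord p Ω I ρN := D.restrict N.subtype N.subtype_injective he
    have h1 : (⟨x, hxN⟩ : N) ∈ DN.conn := by
      rw [Ord.mem_conn, D.rad_restrict]
      rw [← conn_eq_aug hρ hn D] at hx
      exact hx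
    rw [conn_eq_aug hactN (n := n) (fun z => Subtype.ext (hn z.1)) DN] at h1
    have h2 : (augS ρN ⊤).map N.subtype ≤ augS ρ N := by
      rw [augS, AddMonoidHom.map_closure, AddSubgroup.closure_le]
      rintro _ ⟨_, ⟨σ, y, -, rfl⟩, rfl⟩
      exact AddSubgroup.subset_closure ⟨σ, y.1, y.2, rfl⟩
    exact h2 ⟨_, h1, rfl⟩
  · rw [augS, AddSubgroup.closure_le]
    rintro _ ⟨σ, y, hy, rfl⟩
    exact ⟨N.sub_mem (hN σ y hy) hy,
      AddSubgroup.subset_closure ⟨σ, y, AddSubgroup.mem_top y, rfl⟩⟩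

end Fermat.Agent.OrdF
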