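import Fermat.Agent.OrdF.Main
import Fermat.Agent.FlatJ.JFlat

/-!
# The augmentation part of the torsion of `J₀(N)`
-/

set_option autoImplicit false
set_option linter.unusedSectionVars false
set_option linter.style.haveILetI false

noncomputable section

open ModularCurve Module AlgebraicCurve GaloisRep

namespace Fermat.Agent.OrdF

open Fermat.Agent.FlatJ Fermat.Agent.HopfOrder Fermat.Agent.WeilPairing Fermat.Agent.FunField

local notation "Qb" => AlgebraicClosure ℚ

variable {p : ℕ} [hp : Fact p.Prime] {A : ValuationSubring Qb} (N : ℕ) [NeZero N]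

/-- **Classes in `J₀(N)[p ^ n]` whose Weil pairing function is congruent to `1`.** -/
theorem mem_aug_JZero (hA : A.LiesOverPrime p) (hp2 : p ≠ 2) {n : ℕ} {x : JZero N}
    (hx0 : p ^ n • x = 0)
    (hx : letI := torsionAction GQ (JZero N) ((p ^ n : ℕ) : ℤ)
      ∃ (ι : Type) (_ : Fintype ι) (a : ι → Qb)
        (c : ι → Submodule.torsionBy ℤ (JZero N) ((p ^ n : ℕ) : ℤ) → Qb),
      (∀ i, A.valuation (a i) < 1) ∧
      (∀ i, c i ∈ equivInt (ratLocalizedAt p) ℚ Qb
        (Submodule.torsionBy ℤ (JZero N) ((p ^ n : ℕ) : ℤ))) ∧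
      ∀ y : Submodule.torsionBy ℤ (JZero N) ((p ^ n : ℕ) : ℤ),
        (weil (p ^ n) x (y : JZero N) : Qb) = 1 + ∑ i, a i * c i y) :
    x ∈ AddSubgroup.closure {w : JZero N | ∃ s ∈ A.inertiaSubgroupIn ℚ, ∃ y : JZero N,
      p ^ n • y = 0 ∧ w = s • y - y} := by
  letI := torsionAction GQ (JZero N) ((p ^ n : ℕ) : ℤ)
  have hpos : 0 < p ^ n := pow_pos hp.out.pos n
  haveI : Finite (Submodule.torsionBy ℤ (JZero N) ((p ^ n : ℕ) : ℤ)) :=
    finite_torsionBy (K := Qb) (F := modularFunctionFieldBar N) hpos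
  have htor : ∀ y : Submodule.torsionBy ℤ (JZero N) ((p ^ n : ℕ) : ℤ),
      p ^ n • (y : JZero N) = 0 := by
    intro y
    have := (Submodule.mem_torsionBy_iff (R := ℤ) ((p ^ n : ℕ) : ℤ) (y : JZero N)).1 y.2
    rwa [natCast_zsmul] at this
  have hmem : ∀ y : JZero N, p ^ n • y = 0 →
      y ∈ Submodule.torsionBy ℤ (JZero N) ((p ^ n : ℕ) : ℤ) := by
    intro y hy
    rw [Submodule.mem_torsionBy_iff, natCast_zsmul]
    exact hy
  set C : AddSubgroup (JZero N) := AddSubgroup.closure {w : JZero N |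
    ∃ s ∈ A.inertiaSubgroupIn ℚ, ∃ y : JZero N, p ^ n • y = 0 ∧ w = s • y - y} with hC
  have key := mem_aug_of_pairing hA hp2 (M := Submodule.torsionBy ℤ (JZero N) ((p ^ n : ℕ) : ℤ))
    (n := n) (fun z => Subtype.ext (htor z))
    (fun x y => (weil (p ^ n) (x : JZero N) (y : JZero N) : Qb))
    (fun x x' y => by
      rw [Submodule.coe_add, weil_add_left (htor x) (htor x') (htor y), Units.val_mul])
    (fun x y y' => by
      rw [Submodule.coe_add, weil_add_right (htor x) (htor y) (htor y'), Units.val_mul])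
    (fun σ x y => by
      have h1 := weil_smul (arithmeticGalois (modularFunctionFieldFull N) σ) (htor x) (htor y)
      have h2 := congrArg (fun u : Qbˣ => (u : Qb)) h1
      exact h2)
    (fun x y => Units.ne_zero _)
    (fun y hy => by
      apply Subtype.ext
      refine weil_nondeg (K := Qb) (F := modularFunctionFieldBar N) (n := p ^ n)
        (Nat.cast_ne_zero.mpr hpos.ne')
        (fun F' _ _ _ c => BaseChangeFF.pic0_divisible Qb F' (p ^ n) hpos c) (htor y) ?_
      intro z hz
      rw [weil_symm hz (htor y)]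
      have h1 : weil (p ^ n) z (y : JZero N) = 1 := Units.ext (hy ⟨z, hmem z hz⟩)
      rw [h1, inv_one])
    (x := ⟨x, hmem x hx0⟩) hx
    (C.comap (Submodule.torsionBy ℤ (JZero N) ((p ^ n : ℕ) : ℤ)).subtype.toAddMonoidHom)
    (fun s hs y => AddSubgroup.subset_closure ⟨s, hs, (y : JZero N), htor y, rfl⟩)
  exact key

end Fermat.Agent.OrdF
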