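import Fermat.Agent.OrdF.Aug
import Fermat.Agent.FTau.Main

/-!
# The augmentation part of finite flat Galois modules
-/

set_option autoImplicit false
set_option linter.unusedSectionVars false
set_option linter.style.haveILetI false

noncomputable section

namespace Fermat.Agent.OrdF

open Fermat.Agent.Flat Fermat.Agent.FTau Fermat.Agent.HopfOrder GaloisRep

local notation "Qb" => AlgebraicClosure ℚ

variable {p : ℕ} [hp : Fact p.Prime] {A : ValuationSubring Qb}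

/-- The group generated by the `s y - y`, `s` in the inertia group at `A`, `y ∈ N`. -/
def Aug (A : ValuationSubring Qb) {M : Type} [AddCommGroup M] [DistribMulAction GQ M]
    (N : AddSubgroup M) : AddSubgroup M :=
  AddSubgroup.closure {z | ∃ s ∈ A.inertiaSubgroupIn ℚ, ∃ y ∈ N, z = s • y - y}

theorem isAct_inertia {M : Type} [AddCommGroup M] [DistribMulAction GQ M] :
    IsAct (fun (s : A.inertiaSubgroupIn ℚ) (x : M) => (s : GQ) • x) :=
  { one := fun x => one_smul GQ x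
    mul := fun σ τ x => mul_smul (σ : GQ) (τ : GQ) x
    add := fun σ x y => smul_add (σ : GQ) x y }

theorem augS_eq {M : Type} [AddCommGroup M] [DistribMulAction GQ M] (N : AddSubgroup M) :
    augS (fun (s : A.inertiaSubgroupIn ℚ) (x : M) => (s : GQ) • x) N = Aug A N := by
  rw [augS, Aug]
  congr 1
  ext z
  constructor
  · rintro ⟨s, y, hy, rfl⟩
    exact ⟨s.1, s.2, y, hy, rfl⟩
  · rintro ⟨s, hs, y, hy, rfl⟩
    exact ⟨⟨s, hs⟩, y, hy, rfl⟩

/-- **Elements whose pairing function is congruent to `1`.** -/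
theorem mem_aug_of_pairing (hA : A.LiesOverPrime p) (hp2 : p ≠ 2) {M : Type} [AddCommGroup M]
    [DistribMulAction GQ M] [Finite M] {n : ℕ} (hn : ∀ x : M, p ^ n • x = 0) (e : M → M → Qb)
    (he_left : ∀ x x' y, e (x + x') y = e x y * e x' y)
    (he_right : ∀ x y y', e x (y + y') = e x y * e x y')
    (he_gal : ∀ (σ : GQ) x y, e (σ • x) (σ • y) = σ (e x y)) (he_ne : ∀ x y, e x y ≠ 0)
    (hr : ∀ y, (∀ x, e x y = 1) → y = 0) {x : M}
    (hx : ∃ (ι : Type) (_ : Fintype ι) (a : ι → Qb) (c : ι → M → Qb),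
      (∀ i, A.valuation (a i) < 1) ∧ (∀ i, c i ∈ equivInt (ratLocalizedAt p) ℚ Qb M) ∧
      ∀ y, e x y = 1 + ∑ i, a i * c i y) (N : AddSubgroup M)
    (hN : ∀ s ∈ A.inertiaSubgroupIn ℚ, ∀ y : M, s • y - y ∈ N) : x ∈ N := by
  obtain ⟨j, hj⟩ := exists_emb hA
  haveI := setting_QN hj hp2
  obtain ⟨ι, _, a, c, ha, hc, hx⟩ := hx
  have hAR : ∀ q : ratLocalizedAt p, algebraMap (ratLocalizedAt p) Qb q ∈ A :=
    algebraMap_mem_of_liesOver p A hA
  let e' : M → M → QN j := e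
  let a' : ι → QN j := a
  let c' : ι → M → QN j := c
  exact mem_of_family (p := p) (Ω := QN j) (I := A.inertiaSubgroupIn ℚ) (isAct_inertia (M := M))
    hn e' he_left he_right (fun σ x y => he_gal σ x y) he_ne hr a' c'
    (fun i => (hj.lt_iff _).1 (ha i))
    (fun i y => (hj _).1 (isIntegral_mem A hAR ((hc i).1 y)))
    (fun i σ y => (hc i).2 σ y) hx N (fun σ y => hN σ σ.2 y)

/-- **Exactness.** -/
theorem inf_aug (hA : A.LiesOverPrime p) (hp2 : p ≠ 2) {M : Type} [AddCommGroup M]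
    [DistribMulAction GQ M] [Finite M] (hM : IsFlatMod p M) {n : ℕ}
    (hn : ∀ x : M, p ^ n • x = 0) (N : AddSubgroup M)
    (hN : ∀ s ∈ A.inertiaSubgroupIn ℚ, ∀ y ∈ N, s • y ∈ N) : N ⊓ Aug A ⊤ = Aug A N := by
  obtain ⟨j, hj⟩ := exists_emb hA
  haveI := setting_QN hj hp2
  obtain ⟨D⟩ := exists_ord hj hA hp2 hM
  rw [← augS_eq, ← augS_eq]
  exact inf_augS isAct_inertia hn D N fun σ y hy => hN σ σ.2 y hy

theorem inf_aug' (hA : A.LiesOverPrime p) (hp2 : p ≠ 2) {M : Type} [AddCommGroup M]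
    [DistribMulAction GQ M] [Finite M] (hM : IsFlatMod p M) {n : ℕ}
    (hn : ∀ x : M, p ^ n • x = 0) {N N' : AddSubgroup M} (hNN : N ≤ N')
    (hN : ∀ s ∈ A.inertiaSubgroupIn ℚ, ∀ y ∈ N, s • y ∈ N) : N ⊓ Aug A N' = Aug A N := by
  apply le_antisymm
  · rw [← inf_aug hA hp2 hM hn N hN]
    refine inf_le_inf le_rfl (AddSubgroup.closure_mono ?_)
    rintro _ ⟨s, hs, y, -, rfl⟩
    exact ⟨s, hs, y, AddSubgroup.mem_top y, rfl⟩
  · rw [Aug, AddSubgroup.closure_le]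
    rintro _ ⟨s, hs, y, hy, rfl⟩
    exact ⟨N.sub_mem (hN s hs y hy) hy, AddSubgroup.subset_closure ⟨s, hs, y, hNN hy, rfl⟩⟩

/-- The form used in `OrdOld`. -/
theorem augExact (hA : A.LiesOverPrime p) (hp2 : p ≠ 2) {n : ℕ} {M : Type} [AddCommGroup M]
    [Finite M] [DistribMulAction GQ M] (hM : IsFlatMod p M) (hn : ∀ x : M, p ^ n • x = 0)
    (N : AddSubgroup M) (hN : ∀ s ∈ A.inertiaSubgroupIn ℚ, ∀ x ∈ N, s • x ∈ N) (z : M)
    (hz : z ∈ N)
    (hz' : z ∈ AddSubgroup.closure {w | ∃ s ∈ A.inertiaSubgroupIn ℚ, ∃ y : M, w = s • y - y}) :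
    z ∈ AddSubgroup.closure {w | ∃ s ∈ A.inertiaSubgroupIn ℚ, ∃ y ∈ N, w = s • y - y} := by
  have h1 := inf_aug hA hp2 hM hn N hN
  have h2 : z ∈ N ⊓ Aug A ⊤ := by
    refine ⟨hz, ?_⟩
    have h3 : {w | ∃ s ∈ A.inertiaSubgroupIn ℚ, ∃ y : M, w = s • y - y} ⊆
        {w | ∃ s ∈ A.inertiaSubgroupIn ℚ, ∃ y ∈ (⊤ : AddSubgroup M), w = s • y - y} := by
      rintro _ ⟨s, hs, y, rfl⟩
      exact ⟨s, hs, y, AddSubgroup.mem_top y, rfl⟩
    exact AddSubgroup.closure_mono h3 hz'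
  rw [h1] at h2
  exact h2

end Fermat.Agent.OrdF
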