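import Fermat.Agent.Flat.Order
import Mathlib.LinearAlgebra.Lagrange
import Mathlib.RingTheory.Polynomial.Cyclotomic.Eval

/-!
# Elements of the field generated by roots of unity of order a power of `p`
-/

set_option autoImplicit false
set_option linter.unusedSectionVars false
set_option linter.style.haveILetI false

noncomputable section

namespace Fermat.Agent.OrdF

open Fermat.Agent.Flat Polynomial

variable {p : ℕ} [hp : Fact p.Prime] {Ω : Type} [NormedField Ω] {I : Type} [Group I]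
  [MulSemiringAction I Ω] [S : Setting p Ω I]

include S in
/-- Norms of sums with distinct norms. -/
theorem norm_le_norm_sum {ι : Type*} (s : Finset ι) (t : ι → Ω)
    (h : ∀ i ∈ s, ∀ j ∈ s, i ≠ j → t i ≠ 0 → ‖t i‖ ≠ ‖t j‖) :
    ∀ i ∈ s, ‖t i‖ ≤ ‖∑ j ∈ s, t j‖ := by
  classical
  intro i hi
  obtain ⟨i₀, hi₀, hmax⟩ := Finset.exists_max_image s (fun i => ‖t i‖) ⟨i, hi⟩
  refine (hmax i hi).trans ?_
  by_cases h0 : t i₀ = 0
  · simp only [h0, norm_zero]
    exact norm_nonneg _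
  · rw [← Finset.add_sum_erase s t hi₀]
    rw [norm_add_eq_of_lt p Ω I]
    apply norm_sum_lt_of_lt p Ω I _ _ (norm_pos_iff.2 h0)
    intro j hj
    rw [Finset.mem_erase] at hj
    exact lt_of_le_of_ne (hmax j hj.2) (h i₀ hi₀ j hj.2 hj.1.symm h0).symm

/-- Interpolation on an orbit. -/
theorem exists_interp {l γ : Ω} {s : Finset Ω} (hs : ∀ x, x ∈ s ↔ ∃ σ : I, σ • l = x)
    (hγ : ∀ σ : I, σ • l = l → σ • γ = γ) :
    ∃ G : Polynomial Ω, G.degree < s.card ∧ (∀ σ : I, G.eval (σ • l) = σ • γ) ∧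
      ∀ (σ : I) (j : ℕ), σ • G.coeff j = G.coeff j := by
  classical
  let v : Ω → Ω := fun x => if h : ∃ σ : I, σ • l = x then h.choose • γ else 0
  have hv : ∀ σ : I, v (σ • l) = σ • γ := by
    intro σ
    have h : ∃ τ : I, τ • l = σ • l := ⟨σ, rfl⟩
    have h1 : v (σ • l) = h.choose • γ := by
      simp only [v]
      rw [dif_pos h]
    rw [h1]
    have h2 : (σ⁻¹ * h.choose) • l = l := by
      rw [mul_smul, h.choose_spec, inv_smul_smul]
    have h3 := hγ _ h2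
    rw [mul_smul, inv_smul_eq_iff] at h3
    exact h3
  have hinj : Set.InjOn (id : Ω → Ω) s := Function.injective_id.injOn
  let G := Lagrange.interpolate s id v
  have hdeg : G.degree < s.card := Lagrange.degree_interpolate_lt _ hinj
  have heval : ∀ σ : I, G.eval (σ • l) = σ • γ := by
    intro σ
    have h1 := Lagrange.eval_interpolate_at_node v hinj ((hs (σ • l)).2 ⟨σ, rfl⟩)
    exact h1.trans (hv σ)
  refine ⟨G, hdeg, heval, fun σ j => ?_⟩
  let φ : Ω →+* Ω := MulSemiringAction.toRingHom I Ω σ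
  have hφ : ∀ x, φ x = σ • x := fun x => rfl
  have h1 : G.map φ = G := by
    refine Polynomial.eq_of_degrees_lt_of_eval_finset_eq s
      ((Polynomial.degree_map_le).trans_lt hdeg) hdeg ?_
    intro x hx
    obtain ⟨τ, rfl⟩ := (hs x).1 hx
    have h2 : τ • l = φ ((σ⁻¹ * τ) • l) := by
      rw [hφ, ← mul_smul, mul_inv_cancel_left]
    rw [heval]
    conv_lhs => rw [h2]
    rw [Polynomial.eval_map_apply, heval, hφ, ← mul_smul, mul_inv_cancel_left]
  have h2 := congrArg (fun P => Polynomial.coeff P j) h1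
  simp only [Polynomial.coeff_map] at h2
  exact h2

/-- Orthogonality of the powers of a uniformizer. -/
theorem norm_coeff_mul_pow_le {l : Ω} {d : ℕ} (hd : 0 < d) (hl : ‖l‖ ^ d = (p : ℝ)⁻¹)
    {G : Polynomial Ω} (hG : G.degree < d) (hfix : ∀ (σ : I) (j : ℕ), σ • G.coeff j = G.coeff j)
    (j : ℕ) : ‖G.coeff j * l ^ j‖ ≤ ‖G.eval l‖ := by
  have hp1 := one_lt_p p Ω I
  have hp0 := p_pos p Ω I
  by_cases hj : j < d
  swap
  · rw [Polynomial.coeff_eq_zero_of_degree_lt (lt_of_lt_of_le hG (by exact_mod_cast not_lt.1 hj)),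
      zero_mul, norm_zero]
    exact norm_nonneg _
  have hnat : G.natDegree < d := by
    by_cases h0 : G = 0
    · rw [h0, natDegree_zero]; exact hd
    · rwa [Polynomial.natDegree_lt_iff_degree_lt h0]
  rw [Polynomial.eval_eq_sum_range' hnat]
  refine norm_le_norm_sum (p := p) (I := I) (Finset.range d) (fun j => G.coeff j * l ^ j) ?_ j
    (Finset.mem_range.2 hj)
  intro i hi i' hi' hne h0 heq
  have hci : G.coeff i ≠ 0 := left_ne_zero_of_mul h0
  have h0' : G.coeff i' * l ^ i' ≠ 0 := by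
    rw [← norm_ne_zero_iff, ← heq, norm_ne_zero_iff]
    exact h0
  have hci' : G.coeff i' ≠ 0 := left_ne_zero_of_mul h0'
  obtain ⟨m, hm⟩ := S.norm_fixed _ hci fun σ => hfix σ i
  obtain ⟨m', hm'⟩ := S.norm_fixed _ hci' fun σ => hfix σ i'
  have key : ∀ (i : ℕ) (m : ℤ) (c : Ω), ‖c‖ = (p : ℝ) ^ m →
      ‖c * l ^ i‖ ^ d = (p : ℝ) ^ (m * d - i) := by
    intro i m c hc
    rw [norm_mul, norm_pow, mul_pow, hc, ← pow_mul, mul_comm i d, pow_mul, hl, inv_pow,
      ← zpow_natCast ((p : ℝ) ^ m) d, ← zpow_mul, zpow_sub₀ hp0.ne', zpow_natCast, div_eq_mul_inv]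
  have h1 := key i m _ hm
  have h2 := key i' m' _ hm'
  rw [heq, h2] at h1
  have h3 := zpow_right_injective₀ hp0 hp1.ne' h1
  rw [Finset.mem_range] at hi hi'
  have h4 : ((i : ℤ) - i') = d * (m - m') := by linear_combination h3
  have h5 : ((i : ℤ) - i') = 0 := by
    apply Int.eq_zero_of_abs_lt_dvd ⟨_, h4⟩
    rw [abs_lt]
    constructor <;> omega
  exact hne (by omega)

/-- Integrality of the coefficients. -/
theorem norm_coeff_le_one {l : Ω} {d : ℕ} (hd : 0 < d) (hl : ‖l‖ ^ d = (p : ℝ)⁻¹)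
    {G : Polynomial Ω} (hG : G.degree < d) (hfix : ∀ (σ : I) (j : ℕ), σ • G.coeff j = G.coeff j)
    (h1 : ‖G.eval l‖ ≤ 1) (j : ℕ) : ‖G.coeff j‖ ≤ 1 := by
  have hp1 := one_lt_p p Ω I
  have hp0 := p_pos p Ω I
  by_cases h0 : G.coeff j = 0
  · rw [h0, norm_zero]; exact zero_le_one
  have hj : j < d := by
    by_contra hcon
    exact h0 (Polynomial.coeff_eq_zero_of_degree_lt
      (lt_of_lt_of_le hG (by exact_mod_cast not_lt.1 hcon)))
  have h2 := (norm_coeff_mul_pow_le hd hl hG hfix j).trans h1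
  obtain ⟨m, hm⟩ := S.norm_fixed _ h0 fun σ => hfix σ j
  have h3 : ‖G.coeff j * l ^ j‖ ^ d = (p : ℝ) ^ (m * d - j) := by
    rw [norm_mul, norm_pow, mul_pow, hm, ← pow_mul, mul_comm j d, pow_mul, hl, inv_pow,
      ← zpow_natCast ((p : ℝ) ^ m) d, ← zpow_mul, zpow_sub₀ hp0.ne', zpow_natCast, div_eq_mul_inv]
  have h4 : (p : ℝ) ^ (m * d - j) ≤ (p : ℝ) ^ (0 : ℤ) := by
    rw [← h3, zpow_zero]
    exact pow_le_one₀ (norm_nonneg _) h2
  have h5 := (zpow_le_zpow_iff_right₀ hp1).1 h4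
  have h6 : m ≤ 0 := by
    by_contra hcon
    have : (1 : ℤ) ≤ m := by omega
    have h7 : (d : ℤ) ≤ m * d := by nlinarith
    omega
  rw [hm]
  calc (p : ℝ) ^ m ≤ (p : ℝ) ^ (0 : ℤ) := zpow_le_zpow_right₀ hp1.le h6
    _ = 1 := zpow_zero _

include S in
/-- The norm of `ζ - 1`. -/
theorem norm_prim {n : ℕ} {ζ : Ω} (hζ : IsPrimitiveRoot ζ (p ^ (n + 1))) :
    ‖ζ - 1‖ ^ (p ^ (n + 1)).totient = (p : ℝ)⁻¹ := by
  classical
  have hpos : 0 < p ^ (n + 1) := pow_pos hp.out.pos _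
  have hle : ∀ (μ : Ω) (k : ℕ), μ ^ p ^ (n + 1) = 1 → ‖μ ^ k - 1‖ ≤ ‖μ - 1‖ := by
    intro μ k hμ
    have h1 : μ ^ k - 1 = (μ - 1) * ∑ i ∈ Finset.range k, μ ^ i := by
      rw [mul_geom_sum]
    have h2 : ‖μ‖ = 1 := by
      have h3 : ‖μ‖ ^ p ^ (n + 1) = 1 := by rw [← norm_pow, hμ, norm_one]
      exact (pow_eq_one_iff_of_nonneg (norm_nonneg _) hpos.ne').1 h3
    rw [h1, norm_mul]
    refine mul_le_of_le_one_right (norm_nonneg _) ?_
    refine Flat.norm_sum_le_of_le p Ω I _ _ zero_le_one fun i _ => ?_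
    rw [norm_pow, h2, one_pow]
  have heq : ∀ μ ∈ primitiveRoots (p ^ (n + 1)) Ω, ‖1 - μ‖ = ‖ζ - 1‖ := by
    intro μ hμ
    rw [mem_primitiveRoots hpos] at hμ
    rw [norm_sub_rev]
    apply le_antisymm
    · obtain ⟨i, -, rfl⟩ := hζ.eq_pow_of_pow_eq_one hμ.pow_eq_one
      exact hle ζ i hζ.pow_eq_one
    · obtain ⟨i, -, hi⟩ := hμ.eq_pow_of_pow_eq_one hζ.pow_eq_one
      rw [← hi]
      exact hle μ i hμ.pow_eq_one
  have h1 : eval 1 (cyclotomic (p ^ (n + 1)) Ω) = p := eval_one_cyclotomic_prime_pow n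
  rw [cyclotomic_eq_prod_X_sub_primitiveRoots hζ, eval_prod] at h1
  simp only [eval_sub, eval_X, eval_C] at h1
  have h2 := congrArg norm h1
  rw [norm_prod, Finset.prod_congr rfl heq, Finset.prod_const, hζ.card_primitiveRoots,
    S.norm_p] at h2
  exact h2

include S in
/-- Non-trivial roots of unity are far from `1`. -/
theorem inv_lt_norm_sub_one {n : ℕ} {η : Ω} (h : η ^ p ^ n = 1) (h1 : η ≠ 1) :
    (p : ℝ)⁻¹ < ‖η - 1‖ := by
  have hp1 := one_lt_p p Ω I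
  have hp0 := p_pos p Ω I
  obtain ⟨m, hmn, hm⟩ := (Nat.dvd_prime_pow hp.out).1 (orderOf_dvd_of_pow_eq_one h)
  have hprim : IsPrimitiveRoot η (p ^ m) := by
    rw [← hm]
    exact IsPrimitiveRoot.orderOf η
  obtain ⟨k, rfl⟩ : ∃ k, m = k + 1 := by
    cases m with
    | zero =>
      exfalso
      rw [pow_zero] at hm
      exact h1 (orderOf_eq_one_iff.1 hm)
    | succ k => exact ⟨k, rfl⟩
  have h2 := norm_prim (I := I) hprim
  by_contra hcon
  rw [not_lt] at hcon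
  have h3 : 2 ≤ (p ^ (k + 1)).totient := by
    rw [Nat.totient_prime_pow hp.out (Nat.succ_pos k)]
    have h4 : 3 ≤ p := by
      have := hp.out.two_le
      have := S.odd
      omega
    have h5 : 1 ≤ p ^ (k + 1 - 1) := Nat.one_le_pow _ _ hp.out.pos
    calc 2 = 1 * 2 := rfl
      _ ≤ p ^ (k + 1 - 1) * (p - 1) := Nat.mul_le_mul h5 (by omega)
  have h4 : ‖η - 1‖ ^ (p ^ (k + 1)).totient ≤ ((p : ℝ)⁻¹) ^ 2 := by
    calc _ ≤ ((p : ℝ)⁻¹) ^ (p ^ (k + 1)).totient := pow_le_pow_left₀ (norm_nonneg _) hcon _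
      _ ≤ ((p : ℝ)⁻¹) ^ 2 := pow_le_pow_of_le_one (inv_nonneg.2 hp0.le)
          (inv_le_one_of_one_le₀ hp1.le) h3
  rw [h2] at h4
  have h5 : ((p : ℝ)⁻¹) ^ 2 < (p : ℝ)⁻¹ := by
    have h6 : (p : ℝ)⁻¹ < 1 := inv_lt_one_of_one_lt₀ hp1
    have h7 : 0 < (p : ℝ)⁻¹ := inv_pos.2 hp0
    nlinarith
  exact absurd h4 (not_le.2 h5)

/-- **Key lemma.** -/
theorem eq_one_of_family {n : ℕ} {η : Ω} (hη : η ^ p ^ n = 1) {ι : Type} [Fintype ι]
    (a γ : ι → Ω) (ha : ∀ i, ‖a i‖ < 1) (hγ : ∀ i, ‖γ i‖ ≤ 1)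
    (hfix : ∀ σ : I, (∀ μ : Ω, μ ^ p ^ n = 1 → σ • μ = μ) → ∀ i, σ • γ i = γ i)
    (h : ∀ σ : I, σ • η - 1 = ∑ i, a i * (σ • γ i)) : η = 1 := by
  classical
  haveI := S.charZero
  haveI := S.isAlgClosed
  by_contra hne
  cases n with
  | zero =>
    rw [pow_zero, pow_one] at hη
    exact hne hη
  | succ n =>
  have hne0 : NeZero (p ^ (n + 1)) := ⟨(pow_pos hp.out.pos _).ne'⟩
  obtain ⟨ζ, hζ⟩ := HasEnoughRootsOfUnity.exists_primitiveRoot Ω (p ^ (n + 1))
  set d := (p ^ (n + 1)).totient with hd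
  have hd0 : 0 < d := Nat.totient_pos.2 (pow_pos hp.out.pos _)
  have hl : ‖ζ - 1‖ ^ d = (p : ℝ)⁻¹ := norm_prim (I := I) hζ
  -- the orbit of `ζ - 1`
  let s : Finset Ω := ((primitiveRoots (p ^ (n + 1)) Ω).image fun μ => μ - 1).filter
    fun x => ∃ σ : I, σ • (ζ - 1) = x
  have hs : ∀ x, x ∈ s ↔ ∃ σ : I, σ • (ζ - 1) = x := by
    intro x
    rw [Finset.mem_filter, and_iff_right_iff_imp]
    rintro ⟨σ, rfl⟩
    rw [Finset.mem_image]
    refine ⟨σ • ζ, ?_, by rw [smul_sub, smul_one]⟩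
    rw [mem_primitiveRoots (pow_pos hp.out.pos _)]
    exact hζ.map_of_injective (f := MulSemiringAction.toRingHom I Ω σ)
      (MulAction.injective σ)
  have hcard : s.card ≤ d := by
    refine (Finset.card_filter_le _ _).trans (Finset.card_image_le.trans ?_)
    rw [hζ.card_primitiveRoots]
  have hroot : ∀ σ : I, σ • (ζ - 1) = ζ - 1 → ∀ μ : Ω, μ ^ p ^ (n + 1) = 1 → σ • μ = μ := by
    intro σ hσ μ hμ
    have h1 : σ • ζ = ζ := by
      rw [smul_sub, smul_one] at hσ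
      exact sub_left_injective hσ
    obtain ⟨i, -, rfl⟩ := hζ.eq_pow_of_pow_eq_one hμ
    rw [smul_pow', h1]
  have hG : ∀ i, ∃ G : Polynomial Ω, G.degree < s.card ∧
      (∀ σ : I, G.eval (σ • (ζ - 1)) = σ • γ i) ∧
      ∀ (σ : I) (j : ℕ), σ • G.coeff j = G.coeff j := fun i =>
    exists_interp hs fun σ hσ => hfix σ (hroot σ hσ) i
  choose G hGd hGe hGf using hG
  obtain ⟨B, hBd, hBe, hBf⟩ := exists_interp (γ := η - 1) hs fun σ hσ => by
    rw [smul_sub, smul_one, hroot σ hσ η hη]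
  have hcomb : B = ∑ i, C (a i) * G i := by
    refine Polynomial.eq_of_degrees_lt_of_eval_finset_eq s hBd ?_ ?_
    · refine (Polynomial.degree_sum_le _ _).trans_lt ?_
      rw [Finset.sup_lt_iff]
      · intro i _
        refine lt_of_le_of_lt ?_ (hGd i)
        rw [← smul_eq_C_mul]
        exact Polynomial.degree_smul_le _ _
      · rw [bot_lt_iff_ne_bot]
        exact fun h => by simp at h
    · intro x hx
      obtain ⟨σ, rfl⟩ := (hs x).1 hx
      rw [hBe, eval_finsetSum]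
      simp only [eval_mul, eval_C, hGe]
      rw [smul_sub, smul_one, h σ]
  have hlt : ∀ {P : Polynomial Ω}, P.degree < s.card → P.degree < d := fun hP =>
    lt_of_lt_of_le hP (by exact_mod_cast hcard)
  have h1 : ∀ i, ‖(G i).eval (ζ - 1)‖ ≤ 1 := by
    intro i
    have h2 := hGe i 1
    rw [one_smul, one_smul] at h2
    rw [h2]
    exact hγ i
  have hBc : ∀ j, ‖B.coeff j‖ ≤ (p : ℝ)⁻¹ := by
    intro j
    have h2 : ‖B.coeff j‖ < 1 := by
      rw [hcomb, finsetSum_coeff]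
      refine norm_sum_lt_of_lt p Ω I _ _ zero_lt_one fun i _ => ?_
      rw [coeff_C_mul, norm_mul]
      exact lt_of_le_of_lt (mul_le_of_le_one_right (norm_nonneg _)
        (norm_coeff_le_one hd0 hl (hlt (hGd i)) (hGf i) (h1 i) j)) (ha i)
    by_cases h0 : B.coeff j = 0
    · rw [h0, norm_zero]
      exact inv_nonneg.2 (p_pos p Ω I).le
    · obtain ⟨m, hm⟩ := S.norm_fixed _ h0 fun σ => hBf σ j
      rw [hm] at h2 ⊢
      have hp1 := one_lt_p p Ω I
      have h3 : m < 0 := by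
        rw [← zpow_zero (p : ℝ)] at h2
        exact (zpow_lt_zpow_iff_right₀ hp1).1 h2
      rw [← zpow_neg_one]
      exact zpow_le_zpow_right₀ hp1.le (by omega)
  have h2 : ‖η - 1‖ ≤ (p : ℝ)⁻¹ := by
    have h3 := hBe 1
    rw [one_smul, one_smul] at h3
    rw [← h3, Polynomial.eval_eq_sum_range]
    refine Flat.norm_sum_le_of_le p Ω I _ _ (inv_nonneg.2 (p_pos p Ω I).le) fun j _ => ?_
    rw [norm_mul, norm_pow]
    have h4 : ‖ζ - 1‖ ≤ 1 := by
      by_contra hcon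
      rw [not_le] at hcon
      have h5 := one_lt_pow₀ hcon hd0.ne'
      rw [hl] at h5
      exact absurd h5 (not_lt.2 (inv_le_one_of_one_le₀ (one_lt_p p Ω I).le))
    exact (mul_le_of_le_one_right (norm_nonneg _) (pow_le_one₀ (norm_nonneg _) h4)).trans (hBc j)
  exact absurd h2 (not_le.2 (inv_lt_norm_sub_one (I := I) hη hne))

end Fermat.Agent.OrdF
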